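import Fermat.Agent.HoweMoore.Main
import Fermat.Agent.SLnLattice.Cone
import Mathlib.LinearAlgebra.Matrix.SchurComplement

/-!
# The phenomenon of Mautner in `SL n ℝ`

A vector of a continuous unitary representation of `SL n ℝ` which is fixed by one root group is
fixed by the whole group.
-/

set_option autoImplicit false

noncomputable section

open Matrix Filter Topology
open scoped MatrixGroups InnerProductSpace
open FA.SLnLattice FA.HoweMoore

namespace FA.SLnMixing

variable {n : ℕ}

/-- The two coordinate columns `e i, e j`. -/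
def pairCols (i j : Fin n) : Matrix (Fin n) (Fin 2) ℝ :=
  Matrix.of fun k a => if k = ![i, j] a then 1 else 0

theorem pairCols_orth {i j : Fin n} (hij : i ≠ j) : (pairCols i j)ᵀ * pairCols i j = 1 := by
  ext a b
  fin_cases a <;> fin_cases b <;>
    simp [Matrix.mul_apply, pairCols, hij, Ne.symm hij]

theorem det_embed {i j : Fin n} (hij : i ≠ j) (g : SL(2, ℝ)) :
    (1 + pairCols i j * (g.1 - 1) * (pairCols i j)ᵀ).det = 1 := by
  rw [Matrix.det_one_add_mul_comm, ← Matrix.mul_assoc, pairCols_orth hij, Matrix.one_mul,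
    add_sub_cancel]
  exact g.2

/-- The embedding of `SL 2 ℝ` in the coordinates `i, j`. -/
def embed {i j : Fin n} (hij : i ≠ j) : SL(2, ℝ) →* SLR n where
  toFun g := ⟨1 + pairCols i j * (g.1 - 1) * (pairCols i j)ᵀ, det_embed hij g⟩
  map_one' := Subtype.ext (by simp)
  map_mul' g h := Subtype.ext (by
    have e : pairCols i j * (g.1 - 1) * (pairCols i j)ᵀ *
        (pairCols i j * (h.1 - 1) * (pairCols i j)ᵀ) =
        pairCols i j * ((g.1 - 1) * (h.1 - 1)) * (pairCols i j)ᵀ := by
      simp only [Matrix.mul_assoc]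
      rw [← Matrix.mul_assoc (pairCols i j)ᵀ, pairCols_orth hij, Matrix.one_mul]
    show (1 + pairCols i j * (g.1 * h.1 - 1) * (pairCols i j)ᵀ : Matrix (Fin n) (Fin n) ℝ) =
      (1 + pairCols i j * (g.1 - 1) * (pairCols i j)ᵀ) *
        (1 + pairCols i j * (h.1 - 1) * (pairCols i j)ᵀ)
    rw [Matrix.add_mul, Matrix.one_mul, Matrix.mul_add, Matrix.mul_one, e,
      show g.1 * h.1 - 1 =
        (g.1 - 1) + ((h.1 - 1) + (g.1 - 1) * (h.1 - 1)) by noncomm_ring]
    simp only [Matrix.mul_add, Matrix.add_mul]
    abel)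

theorem continuous_embed {i j : Fin n} (hij : i ≠ j) : Continuous (embed hij) := by
  refine Continuous.subtype_mk ?_ _
  exact continuous_const.add ((continuous_const.matrix_mul
    (continuous_subtype_val.sub continuous_const)).matrix_mul continuous_const)

theorem embed_upperU {i j : Fin n} (hij : i ≠ j) (s : ℝ) :
    embed hij (upperU s) = Matrix.SpecialLinearGroup.transvection hij s := by
  refine Subtype.ext (Matrix.ext fun k l => ?_)
  show (1 + pairCols i j * ((upperU s).1 - 1) * (pairCols i j)ᵀ : Matrix (Fin n) (Fin n) ℝ) k l =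
    Matrix.transvection i j s k l
  rw [Matrix.add_apply, Matrix.transvection, Matrix.add_apply]
  congr 1
  simp [Matrix.mul_apply, Fin.sum_univ_two, pairCols, upperU, Matrix.single_apply, eq_comm,
    and_comm]
  split_ifs <;> simp_all

theorem embed_diag {i j : Fin n} (hij : i ≠ j) {c : ℝ} (hc : c ≠ 0) :
    embed hij (mk2 c 0 0 c⁻¹ (by rw [mul_inv_cancel₀ hc]; ring)) =
      Matrix.SpecialLinearGroup.diag2n hij c hc := by
  refine Subtype.ext (Matrix.ext fun k l => ?_)
  show (1 + pairCols i j * ((mk2 c 0 0 c⁻¹ _).1 - 1) * (pairCols i j)ᵀ :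
    Matrix (Fin n) (Fin n) ℝ) k l = _
  rw [Matrix.add_apply, Matrix.SpecialLinearGroup.diag2n_coe, Matrix.diagonal_apply,
    Matrix.one_apply]
  simp only [Matrix.mul_apply, Fin.sum_univ_two, pairCols, mk2_coe, Matrix.transpose_apply,
    Matrix.of_apply, Matrix.cons_val_zero, Matrix.cons_val_one, Matrix.sub_apply,
    Matrix.cons_val_fin_one, Matrix.one_apply_eq, Fin.zero_eq_one_iff, one_ne_zero,
    Matrix.one_apply, zero_ne_one, if_false, if_true, sub_zero]
  by_cases hkl : k = l
  · subst hkl
    by_cases hki : k = i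
    · subst hki
      simp [hij]
    · by_cases hkj : k = j
      · subst hkj
        simp [hki]
      · simp [hki, hkj]
  · by_cases hki : k = i
    · subst hki
      simp [hij, hkl, Ne.symm hkl]
    · by_cases hkj : k = j
      · subst hkj
        simp [hki, hkl, Ne.symm hkl]
      · simp [hki, hkj, hkl]

variable {𝕜 H : Type*} [RCLike 𝕜] [NormedAddCommGroup H] [InnerProductSpace 𝕜 H]
variable (π : SLR n →* (H ≃ₗᵢ[𝕜] H))

theorem rep_mul (g h : SLR n) (v : H) : π (g * h) v = π g (π h v) := by rw [map_mul]; rfl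

theorem rep_one (v : H) : π 1 v = v := by rw [map_one]; rfl

theorem rep_inner (g : SLR n) (v w : H) : ⟪π g v, w⟫_𝕜 = ⟪v, π g⁻¹ w⟫_𝕜 := by
  rw [← LinearIsometryEquiv.inner_map_map (π g⁻¹), ← rep_mul, inv_mul_cancel, rep_one]

theorem rep_eq_of_inner {g : SLR n} {z : H} (h : ⟪π g z, z⟫_𝕜 = ⟪z, z⟫_𝕜) : π g z = z := by
  rw [← sub_eq_zero, ← norm_eq_zero, ← sq_eq_zero_iff, @norm_sub_sq 𝕜, h,
    LinearIsometryEquiv.norm_map, inner_self_eq_norm_sq]
  ring

variable {π}
variable (hπ : ∀ v, Continuous fun g => π g v) {z : H}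
include hπ

/-- Vectors fixed by `d` are fixed by what `d` contracts. -/
theorem fixed_of_contracted {d x : SLR n} (hd : π d z = z)
    (h : Tendsto (fun k : ℕ => d ^ k * x * (d ^ k)⁻¹) atTop (𝓝 1)) : π x z = z := by
  refine rep_eq_of_inner π ?_
  have hpow : ∀ k : ℕ, π (d ^ k) z = z := by
    intro k
    induction k with
    | zero => rw [pow_zero, rep_one]
    | succ k ih => rw [pow_succ, rep_mul, hd, ih]
  have hinv : ∀ k : ℕ, π (d ^ k)⁻¹ z = z := fun k => by
    conv_lhs => rw [← hpow k]
    rw [← rep_mul, inv_mul_cancel, rep_one]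
  have h1 : Tendsto (fun k : ℕ => ⟪π (d ^ k * x * (d ^ k)⁻¹) z, z⟫_𝕜) atTop
      (𝓝 ⟪π 1 z, z⟫_𝕜) :=
    (((hπ z).inner continuous_const).tendsto 1).comp h
  have h2 : ∀ k : ℕ, ⟪π (d ^ k * x * (d ^ k)⁻¹) z, z⟫_𝕜 = ⟪π x z, z⟫_𝕜 := fun k => by
    rw [rep_mul, rep_mul, hinv, rep_inner, hinv]
  simp only [h2, rep_one] at h1
  exact tendsto_nhds_unique tendsto_const_nhds h1

theorem fixed_embed {i j : Fin n} (hij : i ≠ j)
    (hz : ∀ s, π (Matrix.SpecialLinearGroup.transvection hij s) z = z) (g : SL(2, ℝ)) :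
    π (embed hij g) z = z :=
  fixed_of_fixed_upperU (π.comp (embed hij))
    (fun v => (hπ v).comp (continuous_embed hij)) (fun s => by
      rw [MonoidHom.comp_apply, embed_upperU]
      exact hz s) g

omit hπ in
theorem diag_conj {i j k l : Fin n} (hij : i ≠ j) (hkl : k ≠ l) {a : ℝ} (ha : a ≠ 0) (s : ℝ) :
    Matrix.SpecialLinearGroup.diag2n hij a ha * Matrix.SpecialLinearGroup.transvection hkl s *
        (Matrix.SpecialLinearGroup.diag2n hij a ha)⁻¹ =
      Matrix.SpecialLinearGroup.transvection hkl
        (((if k = i then a else if k = j then a⁻¹ else 1) /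
          (if l = i then a else if l = j then a⁻¹ else 1)) * s) := by
  rw [mul_inv_eq_iff_eq_mul]
  refine Subtype.ext (Matrix.ext fun p q => ?_)
  rw [Matrix.SpecialLinearGroup.coe_mul, Matrix.SpecialLinearGroup.coe_mul,
    Matrix.SpecialLinearGroup.diag2n_coe, Matrix.diagonal_mul, Matrix.mul_diagonal,
    Matrix.SpecialLinearGroup.transvection_coe, Matrix.SpecialLinearGroup.transvection_coe,
    Matrix.add_apply, Matrix.add_apply, mul_add, add_mul]
  have hne : ∀ m : Fin n, (if m = i then a else if m = j then a⁻¹ else 1) ≠ 0 := fun m => by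
    split_ifs <;> simp [ha]
  congr 1
  · rcases eq_or_ne p q with rfl | h
    · simp
    · simp [Matrix.one_apply, h]
  · rcases eq_or_ne p k with rfl | hp
    · rcases eq_or_ne q l with rfl | hq
      · simp only [Matrix.single_apply_same]
        rw [div_mul_eq_mul_div, div_mul_cancel₀ _ (hne q)]
      · simp [Matrix.single_apply, Ne.symm hq]
    · simp [Matrix.single_apply, Ne.symm hp]

theorem fixed_transvection_of_ratio {i j k l : Fin n} (hij : i ≠ j) (hkl : k ≠ l)
    (hz : ∀ s, π (Matrix.SpecialLinearGroup.transvection hij s) z = z) {a : ℝ} (ha : a ≠ 0)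
    (hr : |(if k = i then a else if k = j then a⁻¹ else 1) /
      (if l = i then a else if l = j then a⁻¹ else 1)| < 1) (s : ℝ) :
    π (Matrix.SpecialLinearGroup.transvection hkl s) z = z := by
  obtain ⟨r, hr'⟩ : ∃ r, r = (if k = i then a else if k = j then a⁻¹ else 1) /
      (if l = i then a else if l = j then a⁻¹ else 1) := ⟨_, rfl⟩
  obtain ⟨d, hd⟩ : ∃ d, d = Matrix.SpecialLinearGroup.diag2n hij a ha := ⟨_, rfl⟩
  refine fixed_of_contracted hπ (d := d) ?_ ?_
  · rw [hd, ← embed_diag hij ha]
    exact fixed_embed hπ hij hz _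
  · have e : ∀ m : ℕ, d ^ m * Matrix.SpecialLinearGroup.transvection hkl s * (d ^ m)⁻¹ =
        Matrix.SpecialLinearGroup.transvection hkl (r ^ m * s) := by
      intro m
      induction m with
      | zero => simp
      | succ m ih =>
        rw [pow_succ', _root_.mul_inv_rev, show ∀ x : SLR n,
          d * d ^ m * x * ((d ^ m)⁻¹ * d⁻¹) = d * (d ^ m * x * (d ^ m)⁻¹) * d⁻¹ from
            fun x => by group, ih, hd, diag_conj hij hkl ha, ← hr', pow_succ']
        congr 1
        ring
    simp only [e]
    have hc : Continuous fun t : ℝ => Matrix.SpecialLinearGroup.transvection hkl t :=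
      Continuous.subtype_mk (continuous_const.add
        (continuous_pi fun p => continuous_pi fun q => by
          simp only [Matrix.single_apply]
          split_ifs <;> fun_prop)) _
    have h0 : Tendsto (fun m : ℕ => r ^ m * s) atTop (𝓝 0) := by
      simpa using (tendsto_pow_atTop_nhds_zero_of_abs_lt_one (hr' ▸ hr)).mul_const s
    have h := (hc.tendsto 0).comp h0
    simp only [Function.comp_def, Matrix.SpecialLinearGroup.transvection_coeff_zero] at h
    exact h

theorem fixed_transvection {i j k l : Fin n} (hij : i ≠ j) (hkl : k ≠ l)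
    (hz : ∀ s, π (Matrix.SpecialLinearGroup.transvection hij s) z = z) (s : ℝ) :
    π (Matrix.SpecialLinearGroup.transvection hkl s) z = z := by
  have hmeet : ∀ k l : Fin n, ∀ hkl : k ≠ l, (k = i ∨ k = j ∨ l = i ∨ l = j) →
      ∀ s : ℝ, π (Matrix.SpecialLinearGroup.transvection hkl s) z = z := by
    intro k l hkl h s
    by_cases hki : k = i
    · refine fixed_transvection_of_ratio hπ hij hkl hz (a := 1 / 2) (by norm_num) ?_ s
      subst hki
      rw [if_pos rfl, if_neg hkl.symm]
      split_ifs <;> norm_num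
    by_cases hkj : k = j
    · refine fixed_transvection_of_ratio hπ hij hkl hz (a := 2) (by norm_num) ?_ s
      subst hkj
      rw [if_neg hki, if_pos rfl]
      split_ifs with h1 h2
      · norm_num
      · exact absurd h2.symm hkl
      · norm_num
    by_cases hli : l = i
    · refine fixed_transvection_of_ratio hπ hij hkl hz (a := 2) (by norm_num) ?_ s
      subst hli
      rw [if_neg hki, if_neg hkj, if_pos rfl]
      norm_num
    · have hlj : l = j := by tauto
      refine fixed_transvection_of_ratio hπ hij hkl hz (a := 1 / 2) (by norm_num) ?_ s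
      subst hlj
      rw [if_neg hki, if_neg hkj, if_neg hli, if_pos rfl]
      norm_num
  by_cases h : k = i ∨ k = j ∨ l = i ∨ l = j
  · exact hmeet k l hkl h s
  · obtain ⟨hki, hkj, hli, hlj⟩ : k ≠ i ∧ k ≠ j ∧ l ≠ i ∧ l ≠ j := by tauto
    have e : Matrix.SpecialLinearGroup.transvection hkl s =
        Matrix.SpecialLinearGroup.transvection hki s *
          Matrix.SpecialLinearGroup.transvection (Ne.symm hli) 1 *
          Matrix.SpecialLinearGroup.transvection hki (-s) *
          Matrix.SpecialLinearGroup.transvection (Ne.symm hli) (-1 : ℝ) := by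
      refine Subtype.ext ?_
      simp only [Matrix.SpecialLinearGroup.coe_mul, Matrix.SpecialLinearGroup.transvection_coe,
        Matrix.mul_add, Matrix.add_mul, Matrix.one_mul, Matrix.mul_one,
        Matrix.single_mul_single_same, Matrix.single_mul_single_of_ne _ _ _ _ hki.symm,
        Matrix.single_mul_single_of_ne _ _ _ _ hli, Matrix.single_mul_single_of_ne _ _ _ _ hkl.symm,
        add_zero, mul_one, mul_neg, neg_mul, zero_add, Matrix.zero_mul]
      rw [← Matrix.single_neg k i s, ← Matrix.single_neg i l (1 : ℝ)]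
      ext p q
      simp only [Matrix.add_apply, Matrix.single_apply, Matrix.smul_apply, Matrix.neg_apply]
      split_ifs <;> simp <;> ring
    have h1 := hmeet k i hki (Or.inr (Or.inr (Or.inl rfl)))
    have h2 := hmeet i l (Ne.symm hli) (Or.inl rfl)
    rw [e, rep_mul, rep_mul, rep_mul, h2, h1, h2, h1]

/-- **Mautner's phenomenon for `SL n ℝ`.** -/
theorem fixed_of_root {i j : Fin n} (hij : i ≠ j)
    (hz : ∀ s, π (Matrix.SpecialLinearGroup.transvection hij s) z = z) (g : SLR n) :
    π g z = z := by
  haveI : Nontrivial (Fin n) := ⟨i, j, hij⟩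
  refine Matrix.SpecialLinearGroup.diagonal_transvection_induction' (fun g => π g z = z) g
    (fun k l hkl c hc => ?_) (fun k l hkl a => fixed_transvection hπ hij hkl hz a)
    fun A B hA hB => by rw [rep_mul, hB, hA]
  rw [← embed_diag hkl hc]
  exact fixed_embed hπ hkl (fun s => fixed_transvection hπ hij hkl hz s) _

end FA.SLnMixing

end
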