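import Fermat.Agent.SiegelMean.Transform
import Mathlib.Dynamics.Ergodic.Action.Regular
import Mathlib.MeasureTheory.Constructions.Polish.Basic
import Mathlib.MeasureTheory.Measure.Regular
import Mathlib.Topology.Algebra.ProperAction.Basic
import Mathlib.Topology.Instances.Int

/-!
# The space of unimodular lattices

The homogeneous space `SL n ℝ ⧸ SL n ℤ` carries an invariant probability measure, for which the
action of `SL n ℝ` is ergodic.
-/

set_option autoImplicit false

noncomputable section

open MeasureTheory Filter Topology Set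
open scoped ENNReal Pointwise symmDiff
open FA.SLnLattice FA.SiegelMean

namespace FA.SLnMixing

variable {n : ℕ}

instance instIsClosedGamma : IsClosed (Gamma n : Set (SLR n)) := by
  rw [MonoidHom.coe_range]
  exact (Topology.IsClosedEmbedding.specialLinearGroup_map (n := Fin n)
    (f := Int.castRingHom ℝ) Int.isClosedEmbedding_coe_real).isClosed_range

instance instPolishSLR : PolishSpace (SLR n) :=
  haveI : PolishSpace (Matrix (Fin n) (Fin n) ℝ) := inferInstanceAs (PolishSpace (Rows n))
  (Matrix.SpecialLinearGroup.isClosedEmbedding_val (n := Fin n) (R := ℝ)).polishSpace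

/-- The space of unimodular lattices. -/
abbrev Lattices (n : ℕ) := SLR n ⧸ Gamma n

/-- The lattice of a matrix. -/
def toLattice (g : SLR n) : Lattices n := ((g⁻¹ : SLR n) : SLR n ⧸ Gamma n)

theorem toLattice_smul (γ : Gamma n) (g : SLR n) : toLattice (γ • g) = toLattice g := by
  show (((γ.1 * g)⁻¹ : SLR n) : SLR n ⧸ Gamma n) = ((g⁻¹ : SLR n) : SLR n ⧸ Gamma n)
  rw [_root_.mul_inv_rev]
  exact QuotientGroup.mk_mul_of_mem _ ((Gamma n).inv_mem γ.2)

theorem smul_toLattice (h g : SLR n) : h • toLattice g = toLattice (g * h⁻¹) := by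
  show ((h * g⁻¹ : SLR n) : SLR n ⧸ Gamma n) = (((g * h⁻¹)⁻¹ : SLR n) : SLR n ⧸ Gamma n)
  rw [_root_.mul_inv_rev, inv_inv]

variable [MeasurableSpace (SLR n)] [BorelSpace (SLR n)]

theorem measurable_toLattice : Measurable (toLattice : SLR n → Lattices n) :=
  (QuotientGroup.continuous_mk.comp continuous_inv).measurable

variable [NeZero n]

/-- A fundamental domain of `SL n ℤ`. -/
def fundSet (n : ℕ) [MeasurableSpace (SLR n)] [BorelSpace (SLR n)] [NeZero n] : Set (SLR n) :=
  (exists_fundamentalDomain_finite (coneMeasure n)).choose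

theorem fundSet_spec :
    MeasurableSet (fundSet n) ∧ IsFundamentalDomain (Gamma n) (fundSet n) (coneMeasure n) ∧
      0 < coneMeasure n (fundSet n) ∧ coneMeasure n (fundSet n) < ∞ :=
  (exists_fundamentalDomain_finite (coneMeasure n)).choose_spec

/-- **The invariant probability measure on the space of lattices.** -/
def latMeasure (n : ℕ) [MeasurableSpace (SLR n)] [BorelSpace (SLR n)] [NeZero n] :
    Measure (Lattices n) :=
  (coneMeasure n (fundSet n))⁻¹ • ((coneMeasure n).restrict (fundSet n)).map toLattice

theorem latMeasure_apply {A : Set (Lattices n)} (hA : MeasurableSet A) :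
    latMeasure n A =
      (coneMeasure n (fundSet n))⁻¹ * coneMeasure n (toLattice ⁻¹' A ∩ fundSet n) := by
  rw [latMeasure, Measure.smul_apply, Measure.map_apply measurable_toLattice hA,
    Measure.restrict_apply (measurable_toLattice hA), smul_eq_mul]

instance isProbabilityMeasure_latMeasure : IsProbabilityMeasure (latMeasure n) :=
  ⟨by rw [latMeasure_apply MeasurableSet.univ, Set.preimage_univ, Set.univ_inter,
    ENNReal.inv_mul_cancel fundSet_spec.2.2.1.ne' fundSet_spec.2.2.2.ne]⟩

omit [MeasurableSpace (SLR n)] [BorelSpace (SLR n)] [NeZero n] in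
theorem preimage_smul_toLattice (A : Set (Lattices n)) (γ : Gamma n) :
    (fun x : SLR n => γ • x) ⁻¹' (toLattice ⁻¹' A) = toLattice ⁻¹' A := by
  ext x
  simp only [Set.mem_preimage, toLattice_smul]

omit [MeasurableSpace (SLR n)] [BorelSpace (SLR n)] [NeZero n] in
theorem preimage_toLattice_smul (A : Set (Lattices n)) (h : SLR n) :
    toLattice ⁻¹' ((fun x => h • x) ⁻¹' A) = (fun g => g * h⁻¹) ⁻¹' (toLattice ⁻¹' A) := by
  ext x
  simp only [Set.mem_preimage, smul_toLattice]

instance smulInvariant_latMeasure : SMulInvariantMeasure (SLR n) (Lattices n) (latMeasure n) := by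
  refine ⟨fun h A hA => ?_⟩
  rw [latMeasure_apply (measurableSet_preimage (continuous_const_smul h).measurable hA),
    latMeasure_apply hA, preimage_toLattice_smul]
  congr 1
  obtain ⟨hEm, hE, -, -⟩ := fundSet_spec (n := n)
  have hmp : ∀ a : SLR n, MeasurePreserving (fun g => g * a) (coneMeasure n) (coneMeasure n) :=
    fun a => measurePreserving_mul_right _ a
  have hE' : IsFundamentalDomain (Gamma n) ((fun g => g * h) ⁻¹' fundSet n) (coneMeasure n) :=
    hE.preimage_of_equiv (hmp h).quasiMeasurePreserving Function.bijective_id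
      fun γ x => mul_assoc (γ : SLR n) x h
  rw [← hE'.measure_set_eq hE (measurable_toLattice hA) (preimage_smul_toLattice A),
    ← (hmp h⁻¹).measure_preimage ((measurable_toLattice hA).inter
      (measurableSet_preimage (hmp h).measurable hEm)).nullMeasurableSet, Set.preimage_inter]
  congr 2
  ext x
  simp only [Set.mem_preimage, inv_mul_cancel_right]

theorem ae_toLattice {P : Lattices n → Prop} (hP : ∀ᵐ g ∂coneMeasure n, P (toLattice g))
    (hPm : MeasurableSet {x | P x}) : ∀ᵐ x ∂latMeasure n, P x :=
  Measure.ae_smul_measure ((ae_map_iff measurable_toLattice.aemeasurable hPm).2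
    (ae_restrict_of_ae hP)) _

/-- A set of lattices which is null pulls back to a null set. -/
theorem preimage_null {A : Set (Lattices n)} (hA : MeasurableSet A) (h : latMeasure n A = 0) :
    coneMeasure n (toLattice ⁻¹' A) = 0 := by
  rw [latMeasure_apply hA, mul_eq_zero, or_iff_right
    (ENNReal.inv_ne_zero.2 fundSet_spec.2.2.2.ne)] at h
  refine fundSet_spec.2.1.measure_zero_of_invariant _ (fun γ => ?_) h
  rw [← Set.preimage_smul_inv, preimage_smul_toLattice]

/-- **The group acts ergodically on the space of lattices.** -/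
instance ergodicSMul_latMeasure : ErgodicSMul (SLR n) (Lattices n) (latMeasure n) := by
  refine ⟨fun {s} hsm hs => ?_⟩
  have h : ∀ a : (SLR n)ᵐᵒᵖ, (a • ·) ⁻¹' (toLattice ⁻¹' s) =ᵐ[coneMeasure n] toLattice ⁻¹' s := by
    intro a
    obtain ⟨h, rfl⟩ := MulOpposite.op_surjective a
    have h0 : (fun x : SLR n => MulOpposite.op h • x) ⁻¹' (toLattice ⁻¹' s) =
        toLattice ⁻¹' ((fun x => h⁻¹ • x) ⁻¹' s) := by
      rw [preimage_toLattice_smul, inv_inv]
      rfl
    rw [h0, ← measure_symmDiff_eq_zero_iff, ← Set.preimage_symmDiff]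
    exact preimage_null ((measurableSet_preimage (continuous_const_smul _).measurable hsm).symmDiff
      hsm) (measure_symmDiff_eq_zero_iff.2 (hs h⁻¹))
  have hc := ErgodicSMul.aeconst_of_forall_preimage_smul_ae_eq (μ := coneMeasure n)
    (measurable_toLattice hsm) h
  rw [eventuallyConst_set] at hc ⊢
  exact hc.imp (fun hc => ae_toLattice hc hsm) fun hc => ae_toLattice hc hsm.compl

end FA.SLnMixing

end
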