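import Fermat.Agent.SLnMixing.Cartan
import Fermat.Agent.SLnMixing.Roots
import Mathlib.Analysis.InnerProductSpace.Dual

/-!
# The theorem of Howe and Moore for `SL n ℝ`

A weak limit of a vector translated by diagonal matrices going to infinity is fixed by a root
group, hence by everything, hence is zero if the vector is orthogonal to the fixed vectors.
-/

set_option autoImplicit false

noncomputable section

open Matrix Filter Topology
open scoped MatrixGroups InnerProductSpace
open FA.SLnLattice

namespace FA.SLnMixing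

variable {n : ℕ}

/-- Conjugation of a transvection by a diagonal matrix. -/
theorem transvection_mul_diag {D : SLR n} {d : Fin n → ℝ} (hD : D.1 = Matrix.diagonal d)
    {i j : Fin n} (hij : i ≠ j) (hdi : d i ≠ 0) (s : ℝ) :
    Matrix.SpecialLinearGroup.transvection hij s * D =
      D * Matrix.SpecialLinearGroup.transvection hij (s * (d j / d i)) := by
  refine Subtype.ext ?_
  show (Matrix.SpecialLinearGroup.transvection hij s).1 * D.1 =
    D.1 * (Matrix.SpecialLinearGroup.transvection hij (s * (d j / d i))).1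
  rw [hD, Matrix.SpecialLinearGroup.transvection_coe, Matrix.SpecialLinearGroup.transvection_coe]
  refine Matrix.ext fun p q => ?_
  rw [Matrix.mul_diagonal, Matrix.diagonal_mul, Matrix.add_apply, Matrix.add_apply, mul_add,
    add_mul]
  congr 1
  · rcases eq_or_ne p q with rfl | h
    · simp
    · simp [Matrix.one_apply_ne h]
  · rcases eq_or_ne p i with rfl | hp
    · rcases eq_or_ne q j with rfl | hq
      · simp only [Matrix.single_apply_same]
        field_simp
      · simp [Matrix.single_apply, Ne.symm hq]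
    · simp [Matrix.single_apply, Ne.symm hp]

theorem continuous_transvection {i j : Fin n} (hij : i ≠ j) :
    Continuous fun t : ℝ => (Matrix.SpecialLinearGroup.transvection hij t : SLR n) :=
  Continuous.subtype_mk (continuous_const.add (continuous_pi fun p => continuous_pi fun q => by
    simp only [Matrix.single_apply]
    split_ifs <;> fun_prop)) _

theorem isCompact_diagBox (R : ℝ) :
    IsCompact {D : SLR n | D.1 ∈ Matrix.diagonal '' Set.univ.pi fun _ => Set.Icc R⁻¹ R} :=
  (Matrix.SpecialLinearGroup.isClosedEmbedding_val (n := Fin n) (R := ℝ)).isCompact_preimage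
    ((isCompact_univ_pi fun _ => isCompact_Icc).image continuous_id.matrix_diagonal)

/-- Along an ultrafilter going to infinity some ratio of the diagonal parts tends to infinity. -/
theorem exists_ratio_atTop [NeZero n] {F : Ultrafilter (SLR n)}
    (hF : ↑F ≤ cocompact (SLR n)) {k D l : SLR n → SLR n} (hk : ∀ g, k g ∈ rotSet n)
    (hl : ∀ g, l g ∈ rotSet n) {d : SLR n → Fin n → ℝ} (hd : ∀ g i, 0 < d g i)
    (hD : ∀ g, (D g).1 = Matrix.diagonal (d g)) (hdec : ∀ g, g = k g * D g * l g) :
    ∃ i j, i ≠ j ∧ Tendsto (fun g => d g i / d g j) F atTop := by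
  by_contra hno
  have hb : ∀ i j, ∃ R, ∀ᶠ g in (F : Filter (SLR n)), d g i / d g j ≤ R := by
    intro i j
    rcases eq_or_ne i j with rfl | hij
    · exact ⟨1, Eventually.of_forall fun g => (div_self (hd g i).ne').le⟩
    · by_contra h
      refine hno ⟨i, j, hij, tendsto_atTop.2 fun R => ?_⟩
      by_contra hR
      exact h ⟨R, (Ultrafilter.eventually_not.2 hR).mono fun g hg => (not_le.1 hg).le⟩
  choose R hR using hb
  obtain ⟨B, hB⟩ : ∃ B : ℝ, B = 1 + ∑ i, ∑ j, |R i j| := ⟨_, rfl⟩
  have hB1 : 1 ≤ B := by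
    rw [hB]
    exact le_add_of_nonneg_right (by positivity)
  have hle : ∀ i j, R i j ≤ B := fun i j => by
    rw [hB]
    refine (le_abs_self _).trans (le_trans ?_ (le_add_of_nonneg_left zero_le_one))
    exact (Finset.single_le_sum (fun q _ => abs_nonneg (R i q)) (Finset.mem_univ j)).trans
      (Finset.single_le_sum (f := fun p => ∑ q, |R p q|)
        (fun p _ => Finset.sum_nonneg fun q _ => abs_nonneg _) (Finset.mem_univ i))
  obtain ⟨g, hg, hgK⟩ := ((eventually_all.2 fun i => eventually_all.2 fun j => hR i j).and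
    (hF ((isCompact_rotSet.mul (isCompact_diagBox B)).mul
      (isCompact_rotSet (n := n))).compl_mem_cocompact)).exists
  refine hgK ?_
  have hprod : ∏ i, d g i = 1 := by
    have h := (D g).2
    rwa [hD, Matrix.det_diagonal] at h
  have hn : n ≠ 0 := NeZero.ne n
  have hup : ∀ i, d g i ≤ B := fun i => by
    refine le_of_pow_le_pow_left₀ hn (by linarith) ?_
    calc d g i ^ n = ∏ j, d g i / d g j := by
          rw [Finset.prod_div_distrib, hprod, Finset.prod_const, Finset.card_univ,
            Fintype.card_fin, div_one]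
      _ ≤ ∏ _j : Fin n, B := Finset.prod_le_prod (fun j _ => (div_pos (hd g i) (hd g j)).le)
          fun j _ => (hg i j).trans (hle i j)
      _ = B ^ n := by simp
  have hlow : ∀ i, B⁻¹ ≤ d g i := fun i => by
    rw [inv_le_comm₀ (by linarith) (hd g i)]
    refine le_of_pow_le_pow_left₀ hn (by linarith) ?_
    calc (d g i)⁻¹ ^ n = ∏ j, d g j / d g i := by
          rw [Finset.prod_div_distrib, hprod, Finset.prod_const, Finset.card_univ,
            Fintype.card_fin, inv_pow, one_div]
      _ ≤ ∏ _j : Fin n, B := Finset.prod_le_prod (fun j _ => (div_pos (hd g j) (hd g i)).le)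
          fun j _ => (hg j i).trans (hle j i)
      _ = B ^ n := by simp
  rw [hdec g]
  exact Set.mul_mem_mul (Set.mul_mem_mul (hk g)
    ⟨d g, fun i _ => ⟨hlow i, hup i⟩, (hD g).symm⟩) (hl g)

variable {𝕜 H : Type*} [RCLike 𝕜] [NormedAddCommGroup H] [InnerProductSpace 𝕜 H] [CompleteSpace H]
variable {π : SLR n →* (H ≃ₗᵢ[𝕜] H)}

/-- Decay along diagonal matrices with an unbounded ratio of entries. -/
theorem tendsto_inner_diag (hπ : ∀ v, Continuous fun g => π g v) {v : H}
    (hv : ∀ z, (∀ g, π g z = z) → ⟪v, z⟫_𝕜 = 0) {X : Type*} (F : Ultrafilter X) {D : X → SLR n}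
    {d : X → Fin n → ℝ} (hd : ∀ g i, 0 < d g i) (hD : ∀ g, (D g).1 = Matrix.diagonal (d g))
    {i j : Fin n} (hij : i ≠ j) (hr : Tendsto (fun g => d g i / d g j) F atTop) (w : H) :
    Tendsto (fun g => ⟪π (D g) v, w⟫_𝕜) F (𝓝 0) := by
  have hlim : ∀ w : H, ∃ L : 𝕜, Tendsto (fun g => ⟪π (D g) v, w⟫_𝕜) F (𝓝 L) ∧
      ‖L‖ ≤ ‖v‖ * ‖w‖ := by
    intro w
    obtain ⟨L, hL, hle⟩ := (ProperSpace.isCompact_closedBall (0 : 𝕜)
      (‖v‖ * ‖w‖)).ultrafilter_le_nhds (F.map fun g => ⟪π (D g) v, w⟫_𝕜) (by
        rw [le_principal_iff, Ultrafilter.mem_coe, Ultrafilter.mem_map]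
        exact Eventually.of_forall fun g => by
          simpa using (norm_inner_le_norm (π (D g) v) w).trans_eq
            (by rw [LinearIsometryEquiv.norm_map]))
    exact ⟨L, hle, by simpa using hL⟩
  choose L hL hLb using hlim
  set ℓ : StrongDual 𝕜 H := LinearMap.mkContinuous
    { toFun := L
      map_add' := fun a b => tendsto_nhds_unique (hL (a + b))
        (by simpa [inner_add_right] using (hL a).add (hL b))
      map_smul' := fun c a => tendsto_nhds_unique (hL (c • a))
        (by simpa [inner_smul_right] using (hL a).const_mul c) } ‖v‖ hLb with hℓ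
  set z := (InnerProductSpace.toDual 𝕜 H).symm ℓ with hzdef
  have hzi : ∀ w, ⟪z, w⟫_𝕜 = L w := fun w => by
    rw [hzdef, InnerProductSpace.toDual_symm_apply]; rfl
  have hfix : ∀ g, π g z = z := by
    refine fixed_of_root hπ hij fun s => ext_inner_right 𝕜 fun w => ?_
    obtain ⟨T, hT⟩ : ∃ T : ℝ → SLR n,
        T = fun t => Matrix.SpecialLinearGroup.transvection hij t := ⟨_, rfl⟩
    rw [rep_inner, hzi, hzi]
    refine tendsto_nhds_unique (hL _) ?_
    have hu : Tendsto (fun g => π (T (s * (d g j / d g i))) v - v) F (𝓝 0) := by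
      have h0 : Tendsto (fun g => s * (d g j / d g i)) F (𝓝 0) := by
        simpa [inv_div] using hr.inv_tendsto_atTop.const_mul s
      have h1 := (((hπ v).comp (continuous_transvection hij)).tendsto 0).comp h0
      rw [hT]
      simpa [Function.comp_def, rep_one] using h1.sub_const v
    have hd' : Tendsto (fun g => ⟪π (D g) v, π (T s)⁻¹ w⟫_𝕜 - ⟪π (D g) v, w⟫_𝕜) F (𝓝 0) := by
      refine squeeze_zero_norm (fun g => ?_) (by simpa using hu.norm.mul_const ‖w‖)
      rw [← rep_inner, ← rep_mul, hT, transvection_mul_diag (hD g) hij (hd g i).ne', rep_mul,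
        ← inner_sub_left, ← map_sub]
      exact (norm_inner_le_norm _ _).trans_eq (by rw [LinearIsometryEquiv.norm_map])
    simpa [hT] using hd'.add (hL w)
  have hz0 : z = 0 := by
    refine inner_self_eq_zero.1 ((hzi z).trans (tendsto_nhds_unique (hL z) ?_))
    refine tendsto_const_nhds.congr fun g => ?_
    rw [rep_inner π (D g), hfix, hv z hfix]
  have h := hL w
  rwa [← hzi w, hz0, inner_zero_left] at h

/-- **The theorem of Howe and Moore.** For a continuous unitary representation of `SL n ℝ` the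
matrix coefficients of a vector orthogonal to the fixed vectors vanish at infinity. -/
theorem tendsto_inner_cocompact [NeZero n] (hπ : ∀ v, Continuous fun g => π g v) {v : H}
    (hv : ∀ z, (∀ g, π g z = z) → ⟪v, z⟫_𝕜 = 0) (w : H) :
    Tendsto (fun g => ⟪π g v, w⟫_𝕜) (cocompact (SLR n)) (𝓝 0) := by
  choose k hk D hDd l hl hdec using exists_kak (n := n)
  choose d hd hD using hDd
  rw [tendsto_iff_ultrafilter]
  intro F hF
  obtain ⟨κ, hκ, hkκ⟩ := (isCompact_rotSet (n := n)).ultrafilter_le_nhds (F.map k) (by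
    rw [le_principal_iff, Ultrafilter.mem_coe, Ultrafilter.mem_map]
    exact Eventually.of_forall hk)
  obtain ⟨ι, hι, hlι⟩ := (isCompact_rotSet (n := n)).ultrafilter_le_nhds (F.map l) (by
    rw [le_principal_iff, Ultrafilter.mem_coe, Ultrafilter.mem_map]
    exact Eventually.of_forall hl)
  obtain ⟨i, j, hij, hr⟩ := exists_ratio_atTop hF hk hl hd hD hdec
  have hv' : ∀ z, (∀ g, π g z = z) → ⟪π ι v, z⟫_𝕜 = 0 := fun z hz => by
    rw [rep_inner, hz, hv z hz]
  have hmain := tendsto_inner_diag hπ hv' F hd hD hij hr (π κ⁻¹ w)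
  have h1 : Tendsto (fun g => π (l g) v - π ι v) F (𝓝 0) := by
    simpa using (((hπ v).tendsto ι).comp hlι).sub_const (π ι v)
  have h2 : Tendsto (fun g => π (k g)⁻¹ w - π κ⁻¹ w) F (𝓝 0) := by
    simpa using (((hπ w).tendsto κ⁻¹).comp ((continuous_inv.tendsto κ).comp hkκ)).sub_const
      (π κ⁻¹ w)
  have hd' : Tendsto (fun g => ⟪π g v, w⟫_𝕜 - ⟪π (D g) (π ι v), π κ⁻¹ w⟫_𝕜) F (𝓝 0) := by
    refine squeeze_zero_norm (fun g => ?_)
      (by simpa using (h1.norm.mul_const ‖w‖).add (h2.norm.const_mul ‖v‖))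
    have e : ⟪π g v, w⟫_𝕜 = ⟪π (D g) (π (l g) v), π (k g)⁻¹ w⟫_𝕜 := by
      conv_lhs => rw [hdec g, rep_mul, rep_mul, rep_inner]
    rw [e, show ∀ a b c e : H, ⟪a, b⟫_𝕜 - ⟪c, e⟫_𝕜 = ⟪a - c, b⟫_𝕜 + ⟪c, b - e⟫_𝕜 from
      fun a b c e => by rw [inner_sub_left, inner_sub_right]; abel, ← map_sub]
    refine (norm_add_le _ _).trans (add_le_add ((norm_inner_le_norm _ _).trans_eq ?_)
      ((norm_inner_le_norm _ _).trans_eq ?_))
    · rw [LinearIsometryEquiv.norm_map, LinearIsometryEquiv.norm_map]
    · simp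
  simpa using hd'.add hmain

end FA.SLnMixing

end
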