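import Fermat.Agent.HoweMoore.Mixing
import Fermat.Agent.SLnMixing.Main
import Fermat.Agent.SLnMixing.Space
import Mathlib.Topology.Metrizable.Urysohn

/-!
# Mixing and Moore's ergodicity theorem for `SL n ℝ`

Ergodic actions of `SL n ℝ` are mixing, so every element whose powers leave all compact sets
acts ergodically; this applies to the space of unimodular lattices.
-/

set_option autoImplicit false

noncomputable section

open Matrix Filter Topology MeasureTheory
open scoped InnerProductSpace Pointwise ENNReal
open FA.SLnLattice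

namespace FA.SLnMixing

variable {n : ℕ} {X : Type*} [TopologicalSpace X] [MeasurableSpace X] [BorelSpace X]
  [MulAction (SLR n) X] [ContinuousSMul (SLR n) X] {μ : Measure X}

/-- The representation on square integrable functions. -/
def koopman (μ : Measure X) [SMulInvariantMeasure (SLR n) X μ] :
    SLR n →* (Lp ℝ 2 μ ≃ₗᵢ[ℝ] Lp ℝ 2 μ) where
  toFun g := ⟨DistribMulAction.toLinearEquiv ℝ (Lp ℝ 2 μ) (DomMulAct.mk g⁻¹),
    fun f => DomMulAct.norm_smul_Lp _ f⟩
  map_one' := LinearIsometryEquiv.ext fun f => by
    show DomMulAct.mk (1 : SLR n)⁻¹ • f = f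
    rw [inv_one, DomMulAct.mk_one, one_smul]
  map_mul' g h := LinearIsometryEquiv.ext fun f => by
    show DomMulAct.mk (g * h)⁻¹ • f = DomMulAct.mk g⁻¹ • DomMulAct.mk h⁻¹ • f
    rw [_root_.mul_inv_rev, DomMulAct.mk_mul, mul_smul]

theorem koopman_apply [SMulInvariantMeasure (SLR n) X μ] (g : SLR n) (f : Lp ℝ 2 μ) :
    koopman μ g f = DomMulAct.mk g⁻¹ • f := rfl

theorem continuous_koopman [R1Space X] [SMulInvariantMeasure (SLR n) X μ] [IsFiniteMeasure μ]
    [μ.InnerRegularCompactLTTop] (f : Lp ℝ 2 μ) : Continuous fun g => koopman (n := n) μ g f := by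
  let : MeasurableSpace (SLR n) := borel _
  have : BorelSpace (SLR n) := ⟨rfl⟩
  have : Fact ((2 : ℝ≥0∞) ≠ ⊤) := ⟨by simp⟩
  simp only [koopman_apply]
  exact (DomMulAct.continuous_mk.comp continuous_inv).smul continuous_const

/-- The fixed functions of an ergodic action are constant. -/
theorem exists_eq_const_of_fixed [IsFiniteMeasure μ] [ErgodicSMul (SLR n) X μ] {f : Lp ℝ 2 μ}
    (hf : ∀ g, koopman (n := n) μ g f = f) : ∃ c : ℝ, f = Lp.const 2 μ c := by
  have hm : Measurable (f : X → ℝ) := (Lp.stronglyMeasurable f).measurable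
  obtain ⟨c, hc⟩ := exists_eventuallyEq_const_of_forall_separating (l := ae μ)
    (f := (f : X → ℝ)) MeasurableSet fun U hU => by
      refine eventuallyConst_set.1 (ErgodicSMul.aeconst_of_forall_preimage_smul_ae_eq
        (G := SLR n) (hm hU) fun g => ?_)
      have h := DomMulAct.smul_Lp_ae_eq (DomMulAct.mk g) f
      have h0 := hf g⁻¹
      rw [koopman_apply, inv_inv] at h0
      rw [h0] at h
      filter_upwards [h] with x hx
      simp only [Equiv.symm_apply_apply] at hx
      exact propext ⟨fun hm => by show f x ∈ U; rw [hx]; exact hm,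
        fun hm => by show f (g • x) ∈ U; rw [← hx]; exact hm⟩
  exact ⟨c, Lp.ext (hc.trans (Lp.coeFn_const (μ := μ) (p := 2) c).symm)⟩

/-- **Ergodic actions of `SL n ℝ` are mixing.** -/
theorem tendsto_measureReal_inter [NeZero n] [R1Space X] [IsProbabilityMeasure μ]
    [μ.InnerRegularCompactLTTop] [ErgodicSMul (SLR n) X μ] {A B : Set X} (hA : MeasurableSet A)
    (hB : MeasurableSet B) :
    Tendsto (fun g : SLR n => μ.real (A ∩ g • B)) (cocompact (SLR n))
      (𝓝 (μ.real A * μ.real B)) := by
  set v : Lp ℝ 2 μ := indicatorConstLp 2 hB (measure_ne_top μ B) (1 : ℝ) -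
    Lp.const 2 μ (μ.real B) with hv
  have hperp : ∀ z, (∀ g, koopman (n := n) μ g z = z) → ⟪v, z⟫_ℝ = 0 := by
    intro z hz
    obtain ⟨c, rfl⟩ := exists_eq_const_of_fixed hz
    rw [hv, inner_sub_left, FA.HoweMoore.inner_indicatorConstLp_const,
      FA.HoweMoore.inner_const_const]
    ring
  have h := tendsto_inner_cocompact (π := koopman (n := n) μ) continuous_koopman hperp
    (indicatorConstLp 2 hA (measure_ne_top μ A) (1 : ℝ))
  have e : ∀ g : SLR n, ⟪koopman μ g v, indicatorConstLp 2 hA (measure_ne_top μ A) (1 : ℝ)⟫_ℝ =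
      μ.real (A ∩ g • B) - μ.real A * μ.real B := by
    intro g
    rw [hv, map_sub, koopman_apply, koopman_apply, DomMulAct.mk_smul_indicatorConstLp,
      DomMulAct.smul_Lp_const, inner_sub_left, L2.inner_indicatorConstLp_indicatorConstLp,
      real_inner_comm (indicatorConstLp 2 hA (measure_ne_top μ A) (1 : ℝ)),
      FA.HoweMoore.inner_indicatorConstLp_const]
    simp [Set.inter_comm, Set.preimage_smul_inv]
  simp only [e] at h
  simpa using h.add_const (μ.real A * μ.real B)

/-- **Moore's ergodicity theorem.** An element whose powers leave every compact set acts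
ergodically in every ergodic action of `SL n ℝ`. -/
theorem ergodic_smul [NeZero n] [R1Space X] [IsProbabilityMeasure μ]
    [μ.InnerRegularCompactLTTop] [ErgodicSMul (SLR n) X μ] {a : SLR n}
    (ha : Tendsto (fun k : ℕ => a ^ k) atTop (cocompact (SLR n))) :
    Ergodic (fun x : X => a • x) μ := by
  refine { measurePreserving_smul a μ with aeconst_set := fun s hsm hs => ?_ }
  have hk : ∀ k : ℕ, (a ^ k) • s = s := by
    have h1 : a • s = s := by
      conv_lhs => rw [← hs]
      rw [Set.preimage_smul, smul_inv_smul]
    intro k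
    induction k with
    | zero => rw [pow_zero, one_smul]
    | succ k ih => rw [pow_succ, mul_smul, h1, ih]
  have h := (tendsto_measureReal_inter (μ := μ) hsm hsm).comp ha
  simp only [Function.comp_def, hk, Set.inter_self] at h
  have h2 : μ.real s = μ.real s * μ.real s := tendsto_nhds_unique tendsto_const_nhds h
  rw [eventuallyConst_set]
  rcases eq_or_ne (μ.real s) 0 with h0 | h0
  · exact Or.inr (measure_eq_zero_iff_ae_notMem.1 ((measureReal_eq_zero_iff).1 h0))
  · refine Or.inl ((mem_ae_iff_prob_eq_one hsm).2 ?_)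
    have h1 : μ.real s = 1 := mul_left_cancel₀ h0 (by rw [mul_one]; exact h2.symm)
    rwa [measureReal_def, ENNReal.toReal_eq_one_iff] at h1

/-- Powers with an unbounded entry leave every compact set. -/
theorem tendsto_cocompact_of_entry {a : SLR n} {i j : Fin n}
    (h : Tendsto (fun k : ℕ => |(a ^ k).1 i j|) atTop atTop) :
    Tendsto (fun k : ℕ => a ^ k) atTop (cocompact (SLR n)) := by
  refine hasBasis_cocompact.tendsto_right_iff.2 fun K hK => ?_
  obtain ⟨R, hR⟩ := (hK.image (f := fun g : SLR n => |g.1 i j|)
    (continuous_subtype_val.matrix_elem i j).abs).bddAbove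
  filter_upwards [h.eventually_gt_atTop R] with k hk hmem
  exact absurd (hR ⟨_, hmem, rfl⟩) (not_le.2 hk)

theorem transvection_pow {i j : Fin n} (hij : i ≠ j) (t : ℝ) (k : ℕ) :
    (Matrix.SpecialLinearGroup.transvection hij t : SLR n) ^ k =
      Matrix.SpecialLinearGroup.transvection hij ((k : ℝ) * t) := by
  induction k with
  | zero => simp
  | succ k ih =>
    rw [pow_succ, ih]
    refine Subtype.ext ?_
    show (Matrix.SpecialLinearGroup.transvection hij ((k : ℝ) * t)).1 *
      (Matrix.SpecialLinearGroup.transvection hij t).1 = _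
    rw [Matrix.SpecialLinearGroup.transvection_coe, Matrix.SpecialLinearGroup.transvection_coe,
      Matrix.SpecialLinearGroup.transvection_coe]
    show Matrix.transvection i j _ * Matrix.transvection i j _ = Matrix.transvection i j _
    rw [Matrix.transvection_mul_transvection_same i j hij]
    congr 1
    push_cast
    ring

/-- The powers of a nontrivial transvection leave every compact set. -/
theorem tendsto_transvection_pow {i j : Fin n} (hij : i ≠ j) {t : ℝ} (ht : t ≠ 0) :
    Tendsto (fun k : ℕ => (Matrix.SpecialLinearGroup.transvection hij t : SLR n) ^ k) atTop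
      (cocompact (SLR n)) := by
  refine tendsto_cocompact_of_entry (i := i) (j := j) ?_
  have e : ∀ k : ℕ, |((Matrix.SpecialLinearGroup.transvection hij t : SLR n) ^ k).1 i j| =
      (k : ℝ) * |t| := fun k => by
    rw [transvection_pow, Matrix.SpecialLinearGroup.transvection_coe]
    simp [Matrix.one_apply_ne hij, abs_mul]
  simp only [e]
  exact tendsto_natCast_atTop_atTop.atTop_mul_const (abs_pos.2 ht)

/-- The powers of a diagonal matrix with an entry off the unit circle leave every compact set. -/
theorem tendsto_diag2n_pow {i j : Fin n} (hij : i ≠ j) {c : ℝ} (hc : c ≠ 0) (hc1 : 1 < |c|) :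
    Tendsto (fun k : ℕ => (Matrix.SpecialLinearGroup.diag2n hij c hc : SLR n) ^ k) atTop
      (cocompact (SLR n)) := by
  refine tendsto_cocompact_of_entry (i := i) (j := i) ?_
  have e : ∀ k : ℕ, |((Matrix.SpecialLinearGroup.diag2n hij c hc : SLR n) ^ k).1 i i| =
      |c| ^ k := fun k => by
    rw [Matrix.SpecialLinearGroup.coe_pow, Matrix.SpecialLinearGroup.diag2n_coe,
      Matrix.diagonal_pow]
    simp [hij, abs_pow]
  simp only [e]
  exact tendsto_pow_atTop_atTop_of_one_lt hc1

section Lattices

variable [MeasurableSpace (SLR n)] [BorelSpace (SLR n)] [NeZero n]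

instance innerRegular_latMeasure : (latMeasure n).InnerRegularCompactLTTop :=
  haveI : T2Space (Lattices n) := inferInstance
  haveI : TopologicalSpace.MetrizableSpace (Lattices n) :=
    TopologicalSpace.metrizableSpace_of_t3_secondCountable _
  inferInstance

/-- **Mixing on the space of lattices.** -/
theorem lattices_mixing {A B : Set (Lattices n)} (hA : MeasurableSet A) (hB : MeasurableSet B) :
    Tendsto (fun g : SLR n => (latMeasure n).real (A ∩ g • B)) (cocompact (SLR n))
      (𝓝 ((latMeasure n).real A * (latMeasure n).real B)) :=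
  tendsto_measureReal_inter hA hB

end Lattices

end FA.SLnMixing

end
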