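import Fermat.Agent.SLnLattice.Cone
import Mathlib.Analysis.Matrix.PosDef
import Mathlib.Data.Real.StarOrdered

/-!
# The Cartan decomposition of `SL n ℝ`

Every matrix of determinant one is a product `k a l` with `k, l` special orthogonal and `a`
diagonal with positive entries.
-/

set_option autoImplicit false

noncomputable section

open Matrix Set Topology
open FA.SLnLattice

namespace FA.SLnMixing

variable {n : ℕ}

/-- The special orthogonal matrices. -/
def rotSet (n : ℕ) : Set (SLR n) := {k | (k.1)ᵀ * k.1 = 1}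

theorem isCompact_rotSet : IsCompact (rotSet n) := by
  have hbox : IsCompact (Set.univ.pi fun _ : Fin n => Set.univ.pi fun _ : Fin n =>
      Set.Icc (-1 : ℝ) 1 : Set (Matrix (Fin n) (Fin n) ℝ)) :=
    isCompact_univ_pi fun _ => isCompact_univ_pi fun _ => isCompact_Icc
  refine ((Matrix.SpecialLinearGroup.isClosedEmbedding_val (n := Fin n)
    (R := ℝ)).isCompact_preimage hbox).of_isClosed_subset ?_ ?_
  · exact isClosed_eq ((continuous_subtype_val.matrix_transpose).matrix_mul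
      continuous_subtype_val) continuous_const
  · intro k hk i _ j _
    have h : ∑ m, k.1 m j * k.1 m j = 1 := by
      have h0 := congrFun (congrFun (show (k.1)ᵀ * k.1 = 1 from hk) j) j
      rwa [Matrix.mul_apply, Matrix.one_apply_eq] at h0
    have h1 : k.1 i j * k.1 i j ≤ 1 := le_of_le_of_eq (Finset.single_le_sum
      (f := fun m => k.1 m j * k.1 m j) (fun m _ => mul_self_nonneg _) (Finset.mem_univ i)) h
    exact abs_le.1 (abs_le_one_iff_mul_self_le_one.2 h1)

/-- **The Cartan decomposition.** -/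
theorem exists_kak [NeZero n] (g : SLR n) :
    ∃ k ∈ rotSet n, ∃ D : SLR n, (∃ d : Fin n → ℝ, (∀ i, 0 < d i) ∧ D.1 = Matrix.diagonal d) ∧
      ∃ l ∈ rotSet n, g = k * D * l := by
  classical
  obtain ⟨A, hA⟩ : ∃ A : Matrix (Fin n) (Fin n) ℝ, A = (g.1)ᵀ * g.1 := ⟨_, rfl⟩
  have hP : A.PosDef := by
    rw [hA, ← Matrix.conjTranspose_eq_transpose_of_trivial]
    exact Matrix.PosDef.conjTranspose_mul_self _ (Matrix.mulVec_injective_iff_isUnit.2
      ((Matrix.isUnit_iff_isUnit_det _).2 (by rw [g.2]; exact isUnit_one)))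
  obtain ⟨U, hU⟩ : ∃ U : Matrix (Fin n) (Fin n) ℝ,
      U = (hP.1.eigenvectorUnitary : Matrix (Fin n) (Fin n) ℝ) := ⟨_, rfl⟩
  obtain ⟨ev, hev⟩ : ∃ ev : Fin n → ℝ, ev = hP.1.eigenvalues := ⟨_, rfl⟩
  have hUU : Uᵀ * U = 1 := by
    rw [hU, ← Matrix.conjTranspose_eq_transpose_of_trivial, ← Matrix.star_eq_conjTranspose]
    exact Unitary.coe_star_mul_self _
  have hspec : A = U * Matrix.diagonal ev * Uᵀ := by
    have h := hP.1.spectral_theorem
    rw [Unitary.conjStarAlgAut_apply] at h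
    rw [hU, hev]
    simpa [Matrix.star_eq_conjTranspose, Matrix.conjTranspose_eq_transpose_of_trivial] using h
  -- make the determinant one
  obtain ⟨S, hS⟩ : ∃ S : Matrix (Fin n) (Fin n) ℝ,
      S = Matrix.diagonal (Function.update (fun _ => (1 : ℝ)) 0 U.det) := ⟨_, rfl⟩
  have hdet : U.det * U.det = 1 := by
    simpa using congrArg Matrix.det hUU
  have hSdet : S.det = U.det := by
    rw [hS, Matrix.det_diagonal, Finset.prod_update_of_mem (Finset.mem_univ _)]
    simp
  have hSS : Sᵀ * S = 1 := by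
    rw [hS, Matrix.diagonal_transpose, Matrix.diagonal_mul_diagonal, ← Matrix.diagonal_one]
    congr 1
    funext i
    rcases eq_or_ne i 0 with rfl | hi
    · simp [hdet]
    · simp [hi]
  have hSD : S * Matrix.diagonal ev * Sᵀ = Matrix.diagonal ev := by
    rw [hS, Matrix.diagonal_transpose, Matrix.diagonal_mul_diagonal, Matrix.diagonal_mul_diagonal]
    congr 1
    funext i
    rcases eq_or_ne i 0 with rfl | hi
    · simp [mul_right_comm _ (ev 0), hdet]
    · simp [hi]
  obtain ⟨u, hu⟩ : ∃ u : SLR n, u.1 = U * S :=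
    ⟨⟨U * S, by rw [Matrix.det_mul, hSdet, hdet]⟩, rfl⟩
  have huu : (u.1)ᵀ * u.1 = 1 := by
    rw [hu, Matrix.transpose_mul, Matrix.mul_assoc, ← Matrix.mul_assoc Uᵀ, hUU, Matrix.one_mul,
      hSS]
  have huA : (u.1)ᵀ * A * u.1 = Matrix.diagonal ev := by
    have e : A = u.1 * Matrix.diagonal ev * (u.1)ᵀ := by
      rw [hspec, hu, Matrix.transpose_mul]
      conv_lhs => rw [← hSD]
      simp only [Matrix.mul_assoc]
    rw [e]
    simp only [← Matrix.mul_assoc]
    rw [huu, Matrix.one_mul, Matrix.mul_assoc, huu, Matrix.mul_one]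
  have hevpos : ∀ i, 0 < ev i := fun i => by rw [hev]; exact hP.eigenvalues_pos i
  have hprod : ∏ i, Real.sqrt (ev i) = 1 := by
    have h1 : ∏ i, ev i = 1 := by
      have h2 := congrArg Matrix.det huA
      rw [Matrix.det_diagonal, Matrix.det_mul, Matrix.det_mul, Matrix.det_transpose, u.2, hA,
        Matrix.det_mul, Matrix.det_transpose, g.2] at h2
      simpa using h2.symm
    rw [← Real.sqrt_prod _ fun i _ => (hevpos i).le, h1, Real.sqrt_one]
  obtain ⟨D, hD⟩ : ∃ D : SLR n, D.1 = Matrix.diagonal fun i => Real.sqrt (ev i) :=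
    ⟨⟨Matrix.diagonal fun i => Real.sqrt (ev i),
      (Matrix.det_diagonal).trans hprod⟩, rfl⟩
  refine ⟨g * u * D⁻¹, ?_, D, ⟨_, fun i => Real.sqrt_pos.2 (hevpos i), hD⟩, u⁻¹, ?_, by group⟩
  · show ((g * u * D⁻¹ : SLR n) : Matrix (Fin n) (Fin n) ℝ)ᵀ *
      ((g * u * D⁻¹ : SLR n) : Matrix (Fin n) (Fin n) ℝ) = 1
    have hDD : (D.1)ᵀ * D.1 = Matrix.diagonal ev := by
      rw [hD, Matrix.diagonal_transpose, Matrix.diagonal_mul_diagonal]
      congr 1
      funext i
      exact Real.mul_self_sqrt (hevpos i).le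
    have hinv : D.1 * (D⁻¹ : SLR n).1 = 1 := congrArg Subtype.val (mul_inv_cancel D)
    have e : ((g * u * D⁻¹ : SLR n) : Matrix (Fin n) (Fin n) ℝ) = g.1 * u.1 * (D⁻¹ : SLR n).1 := rfl
    rw [e, Matrix.transpose_mul, Matrix.transpose_mul]
    calc ((D⁻¹ : SLR n).1)ᵀ * ((u.1)ᵀ * (g.1)ᵀ) * (g.1 * u.1 * (D⁻¹ : SLR n).1)
        = ((D⁻¹ : SLR n).1)ᵀ * ((u.1)ᵀ * ((g.1)ᵀ * g.1) * u.1) * (D⁻¹ : SLR n).1 := by
          simp only [Matrix.mul_assoc]
      _ = (D.1 * (D⁻¹ : SLR n).1)ᵀ * (D.1 * (D⁻¹ : SLR n).1) := by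
          rw [← hA, huA, ← hDD, Matrix.transpose_mul]
          simp only [Matrix.mul_assoc]
      _ = 1 := by rw [hinv, Matrix.transpose_one, Matrix.one_mul]
  · show ((u⁻¹ : SLR n).1)ᵀ * (u⁻¹ : SLR n).1 = 1
    have e : ((u⁻¹ : SLR n).1) = (u.1)ᵀ := by
      have h1 : (u⁻¹ : SLR n).1 * u.1 = 1 := congrArg Subtype.val (inv_mul_cancel u)
      exact left_inv_eq_right_inv h1 (mul_eq_one_comm.1 huu)
    rw [e, Matrix.transpose_transpose]
    exact mul_eq_one_comm.1 huu

end FA.SLnMixing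

end
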